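import Mathlib

/-!
# S41 / CSP : counting lemma for the pigeonhole
-/

namespace Fermat.Agent.S41.CSP

/-- a set on which `M` takes values in `H` has at most `card H` elements. -/
theorem Card_le_of_maps {G : Type} [Group G] [Fintype G] [DecidableEq G] (H : Subgroup G)
    (M : G → G → Prop) (hinj : ∀ z z' ρ, M z ρ → M z' ρ → z = z') (T : Finset G)
    (hT : ∀ z ∈ T, ∃ ρ, ρ ∈ H ∧ M z ρ) : T.card ≤ Nat.card H := by
  classical
  have hc : Nat.card H = (Finset.univ.filter (fun x : G => x ∈ H)).card := by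
    rw [Nat.card_eq_fintype_card]
    exact Fintype.card_subtype _
  rw [hc]
  refine Finset.card_le_card_of_injOn
    (fun z => if h : ∃ ρ, ρ ∈ H ∧ M z ρ then h.choose else 1) ?_ ?_
  · intro z hz
    have h := hT z hz
    simp only [dif_pos h]
    simp only [Finset.coe_filter, Finset.mem_univ, true_and, Set.mem_ofPred_eq]
    exact h.choose_spec.1
  · intro z hz z' hz' he
    have h := hT z hz
    have h' := hT z' hz'
    simp only [dif_pos h, dif_pos h'] at he
    have h1 := h.choose_spec.2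
    have h2 := h'.choose_spec.2
    rw [he] at h1
    exact hinj z z' _ h1 h2

/-- the complement of `H`, minus `E`. -/
theorem Card_compl_le {G : Type} [Group G] [Fintype G] [DecidableEq G] (H : Subgroup G)
    (M : G → G → Prop) (hinj : ∀ z z' ρ, M z ρ → M z' ρ → z = z') (E : Finset G)
    (hdef : ∀ z, z ∉ E → ∃ ρ, M z ρ) (hmap : ∀ z ρ, z ∉ H → M z ρ → ρ ∈ H) (B : Finset G)
    (hB : ∀ z ∈ B, z ∈ H ∧ ∃ ρ, ρ ∈ H ∧ M z ρ) :
    B.card + Fintype.card G ≤ 2 * Nat.card H + E.card := by
  classical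
  have hc : Nat.card H = (Finset.univ.filter (fun x : G => x ∈ H)).card := by
    rw [Nat.card_eq_fintype_card]
    exact Fintype.card_subtype _
  set D : Finset G := Finset.univ.filter (fun z : G => z ∉ H ∧ z ∉ E) with hD
  have hdisj : Disjoint B D := by
    rw [Finset.disjoint_left]
    intro z hz hz'
    rw [hD, Finset.mem_filter] at hz'
    exact hz'.2.1 (hB z hz).1
  have h1 : (B ∪ D).card ≤ Nat.card H := by
    refine Card_le_of_maps H M hinj _ ?_
    intro z hz
    rcases Finset.mem_union.1 hz with hz | hz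
    · exact (hB z hz).2
    · rw [hD, Finset.mem_filter] at hz
      obtain ⟨ρ, hρ⟩ := hdef z hz.2.2
      exact ⟨ρ, hmap z ρ hz.2.1 hρ, hρ⟩
  rw [Finset.card_union_of_disjoint hdisj] at h1
  have h2 : (Finset.univ : Finset G) ⊆ (Finset.univ.filter (fun x : G => x ∈ H)) ∪ (D ∪ E) := by
    intro z _
    by_cases hzH : z ∈ H
    · exact Finset.mem_union_left _ (Finset.mem_filter.2 ⟨Finset.mem_univ _, hzH⟩)
    · by_cases hzE : z ∈ E
      · exact Finset.mem_union_right _ (Finset.mem_union_right _ hzE)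
      · exact Finset.mem_union_right _ (Finset.mem_union_left _
          (Finset.mem_filter.2 ⟨Finset.mem_univ _, hzH, hzE⟩))
  have h3 := Finset.card_le_card h2
  have h4 := Finset.card_union_le (Finset.univ.filter (fun x : G => x ∈ H)) (D ∪ E)
  have h5 := Finset.card_union_le D E
  rw [Finset.card_univ] at h3
  rw [← hc] at h4
  omega

/-- **Counting lemma**: `M` a relation which is injective in `z` and defined for all `z` outside a
finite set `E`; `H` of index 2; `M` maps `Hᶜ` into `H`.  Then at most `card E` elements of `H` are mapped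
into `H`.
PROOF: `B := {z ∈ H | ∃ ρ ∈ H, M z ρ}`, `D := Hᶜ \ E`.  Choosing values gives an injection
`B ∪ D → H` (injective by `hinj`), `B`, `D` disjoint, so `card B + card D ≤ card H`; `card Hᶜ = card H`
(index 2: `Subgroup.card_mul_index`), `card D ≥ card H - card E`. -/
theorem card_bad_le {G : Type} [Group G] [Fintype G] [DecidableEq G] (H : Subgroup G) (hH : H.index = 2)
    (M : G → G → Prop) (hinj : ∀ z z' ρ, M z ρ → M z' ρ → z = z') (E : Finset G)
    (hdef : ∀ z, z ∉ E → ∃ ρ, M z ρ) (hmap : ∀ z ρ, z ∉ H → M z ρ → ρ ∈ H) :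
    ∃ B : Finset G, B.card ≤ E.card ∧ ∀ z ρ, z ∈ H → M z ρ → ρ ∈ H → z ∈ B := by
  classical
  refine ⟨Finset.univ.filter (fun z : G => z ∈ H ∧ ∃ ρ, ρ ∈ H ∧ M z ρ), ?_, ?_⟩
  · have h1 := Card_compl_le H M hinj E hdef hmap
      (Finset.univ.filter (fun z : G => z ∈ H ∧ ∃ ρ, ρ ∈ H ∧ M z ρ))
      (fun z hz => (Finset.mem_filter.1 hz).2)
    have h2 := H.card_mul_index
    rw [hH, Nat.card_eq_fintype_card (α := G)] at h2
    omega
  · intro z ρ hz hM hρ
    exact Finset.mem_filter.2 ⟨Finset.mem_univ _, hz, ρ, hρ, hM⟩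

/-- **Index lemma**: `M` injective in `z`, defined outside `E`, mapping `Hᶜ` into `H`, `H ≠ ⊤`,
`3 * card E + 3 ≤ card G`... then `H` has index 2.
PROOF: injection `Hᶜ \ E → H`: `card G - card H - card E ≤ card H`.  `card H * index = card G`, `index ≠ 1`
(as `H ≠ ⊤`), `index ≠ 0` (finite).  If `index ≥ 3`: `3 * card H ≤ card G`, so
`card G ≤ 2 * card H + card E ≤ 2 * card G / 3 + card E`, i.e. `card G ≤ 3 * card E`: contradiction. -/
theorem index_eq_two_of_inj {G : Type} [Group G] [Fintype G] [DecidableEq G] (H : Subgroup G)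
    (hH : H ≠ ⊤) (M : G → G → Prop) (hinj : ∀ z z' ρ, M z ρ → M z' ρ → z = z') (E : Finset G)
    (hdef : ∀ z, z ∉ E → ∃ ρ, M z ρ) (hmap : ∀ z ρ, z ∉ H → M z ρ → ρ ∈ H)
    (hcard : 3 * E.card < Fintype.card G) : H.index = 2 := by
  classical
  have h1 := Card_compl_le H M hinj E hdef hmap ∅ (fun z hz => absurd hz (Finset.notMem_empty z))
  rw [Finset.card_empty, zero_add] at h1
  have h2 := H.card_mul_index
  rw [Nat.card_eq_fintype_card (α := G)] at h2
  have h3 : H.index ≠ 1 := fun h => hH (Subgroup.index_eq_one.1 h)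
  have h4 : H.index ≠ 0 := Subgroup.index_ne_zero_of_finite
  by_contra hne
  have h5 : 3 ≤ H.index := by omega
  have h6 : Nat.card H * 3 ≤ Nat.card H * H.index := Nat.mul_le_mul_left _ h5
  omega

end Fermat.Agent.S41.CSP
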