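import Fermat.Agent.S41.CSP.Pigeon.Defs
import Fermat.Agent.S41.CSP.Pigeon.Card

/-!
# S41 / CSP : the pigeonhole in `F_r` (step PIGEONHOLE of report 385)
-/

namespace Fermat.Agent.S41.CSP

variable {r : ℕ} [Fact r.Prime]

/-- **Pigeonhole.**  `1, w1, w2` distinct in `F_r^*`, `r > 19`, `H` a proper subgroup: there are
`z ∉ H`, `w ∈ {w1, w2}` with `ρ = (wz-1)/(z-1) ∉ H`.

PROOF.  Suppose not: `(*) z ∉ H → Moeb wi z ρ → ρ ∈ H` (i = 1, 2).  `index_eq_two_of_inj` with `M = Moeb w1`,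
`E = {1, w1⁻¹}` (`card (ZMod r)ˣ = r - 1 > 6`, `ZMod.card_units`) gives index 2.
By `Moeb3.of_moeb`, `Moeb.exists` and `(*)`, `Moeb3 w1 w2` maps `Hᶜ` into `H` too (for `z ∉ H`: `z ≠ 1`; if
`Moeb3 w1 w2 z ρ` then `w2 z ≠ 1`, and `w1 z ≠ 1` because `ρ` is a unit; take `ρ1, ρ2`; `ρ = ρ1 * ρ2⁻¹` since both
satisfy the same linear equation with nonzero coefficient).
`card_bad_le` for `Moeb w1` (`E = {1, w1⁻¹}`), `Moeb w2` (`E = {1, w2⁻¹}`), `Moeb3 w1 w2` (`E = {w1⁻¹, w2⁻¹}`)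
gives `B1, B2, B3` with `≤ 2` elements each.  `card H = (r-1)/2 > 9`, so there is `z ∈ H` outside
`B1 ∪ B2 ∪ B3 ∪ {1, w1⁻¹, w2⁻¹}`.  Take `ρ1, ρ2` (`Moeb.exists`).  Then `ρ1, ρ2 ∉ H`, so `ρ1 * ρ2⁻¹ ∈ H`
(`Subgroup.mul_mem_iff_of_index_two`, `inv_mem_iff`), so `z ∈ B3` by `Moeb3.of_moeb`: contradiction. -/
theorem exists_pair (hr : 19 < r) (w1 w2 : (ZMod r)ˣ) (h1 : w1 ≠ 1) (h2 : w2 ≠ 1) (h12 : w1 ≠ w2)
    (H : Subgroup (ZMod r)ˣ) (hH : H ≠ ⊤) :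
    ∃ z ρ : (ZMod r)ˣ, (Moeb w1 z ρ ∨ Moeb w2 z ρ) ∧ z ∉ H ∧ ρ ∉ H := by
  classical
  by_contra hcon
  push Not at hcon
  have star1 : ∀ z ρ, z ∉ H → Moeb w1 z ρ → ρ ∈ H := fun z ρ hz hM => hcon z ρ (Or.inl hM) hz
  have star2 : ∀ z ρ, z ∉ H → Moeb w2 z ρ → ρ ∈ H := fun z ρ hz hM => hcon z ρ (Or.inr hM) hz
  have hcardG : Fintype.card (ZMod r)ˣ = r - 1 := ZMod.card_units r
  have hne : ∀ {w z : (ZMod r)ˣ}, z ≠ w⁻¹ → w * z ≠ 1 := fun hz h =>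
    hz (eq_inv_of_mul_eq_one_right h)
  have hdef : ∀ w : (ZMod r)ˣ, ∀ z, z ∉ ({1, w⁻¹} : Finset (ZMod r)ˣ) → ∃ ρ, Moeb w z ρ := by
    intro w z hz
    rw [Finset.mem_insert, Finset.mem_singleton, not_or] at hz
    exact Moeb.exists hz.1 (hne hz.2)
  have hdef3 : ∀ z, z ∉ ({w1⁻¹, w2⁻¹} : Finset (ZMod r)ˣ) → ∃ ρ, Moeb3 w1 w2 z ρ := by
    intro z hz
    rw [Finset.mem_insert, Finset.mem_singleton, not_or] at hz
    exact Moeb3.exists (hne hz.1) (hne hz.2)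
  have hidx : H.index = 2 := by
    refine index_eq_two_of_inj H hH (Moeb w1) (fun z z' ρ h h' => Moeb.inj h1 h h') {1, w1⁻¹}
      (hdef w1) star1 ?_
    have := Finset.card_le_two (a := (1 : (ZMod r)ˣ)) (b := w1⁻¹)
    omega
  have star3 : ∀ z ρ, z ∉ H → Moeb3 w1 w2 z ρ → ρ ∈ H := by
    intro z ρ hz hM
    have hz1 : z ≠ 1 := fun h => hz (h ▸ H.one_mem)
    have hw2 : w2 * z ≠ 1 := by
      intro h
      apply hM.1
      have := congrArg (Units.val) h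
      simpa using this
    have hsub : ((w2 : ZMod r) * z - 1) ≠ 0 := sub_ne_zero.2 hM.1
    have hw1 : w1 * z ≠ 1 := by
      intro h
      have h' : (w1 : ZMod r) * z = 1 := by
        have := congrArg (Units.val) h
        simpa using this
      have h3 := hM.2
      rw [h', sub_self] at h3
      rcases mul_eq_zero.1 h3 with h4 | h4
      · exact ρ.ne_zero h4
      · exact hsub h4
    obtain ⟨ρ1, hρ1⟩ := Moeb.exists hz1 hw1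
    obtain ⟨ρ2, hρ2⟩ := Moeb.exists hz1 hw2
    have h3 := Moeb3.of_moeb hρ1 hρ2
    have heq : ρ = ρ1 * ρ2⁻¹ := by
      apply Units.ext
      exact mul_right_cancel₀ hsub (hM.2.trans h3.2.symm)
    rw [heq]
    exact H.mul_mem (star1 z ρ1 hz hρ1) (H.inv_mem (star2 z ρ2 hz hρ2))
  obtain ⟨B1, hB1c, hB1⟩ := card_bad_le H hidx (Moeb w1) (fun z z' ρ h h' => Moeb.inj h1 h h')
    {1, w1⁻¹} (hdef w1) star1
  obtain ⟨B2, hB2c, hB2⟩ := card_bad_le H hidx (Moeb w2) (fun z z' ρ h h' => Moeb.inj h2 h h')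
    {1, w2⁻¹} (hdef w2) star2
  obtain ⟨B3, hB3c, hB3⟩ := card_bad_le H hidx (Moeb3 w1 w2)
    (fun z z' ρ h h' => Moeb3.inj h12 h h') {w1⁻¹, w2⁻¹} hdef3 star3
  let HF : Finset (ZMod r)ˣ := Finset.univ.filter (· ∈ H)
  have hHF : Nat.card H = HF.card := Nat.subtype_card HF (fun x => by simp [HF])
  have hmul := H.card_mul_index
  rw [hidx, Nat.card_eq_fintype_card (α := (ZMod r)ˣ), hcardG, hHF] at hmul
  let S : Finset (ZMod r)ˣ := B1 ∪ B2 ∪ B3 ∪ {1, w1⁻¹, w2⁻¹}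
  have hS : S.card ≤ 9 := by
    have e1 := Finset.card_le_two (a := (1 : (ZMod r)ˣ)) (b := w1⁻¹)
    have e2 := Finset.card_le_two (a := (1 : (ZMod r)ˣ)) (b := w2⁻¹)
    have e3 := Finset.card_le_two (a := w1⁻¹) (b := w2⁻¹)
    have e4 := Finset.card_le_three (a := (1 : (ZMod r)ˣ)) (b := w1⁻¹) (c := w2⁻¹)
    have u1 := Finset.card_union_le (B1 ∪ B2 ∪ B3) ({1, w1⁻¹, w2⁻¹} : Finset (ZMod r)ˣ)
    have u2 := Finset.card_union_le (B1 ∪ B2) B3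
    have u3 := Finset.card_union_le B1 B2
    show (B1 ∪ B2 ∪ B3 ∪ {1, w1⁻¹, w2⁻¹} : Finset (ZMod r)ˣ).card ≤ 9
    omega
  obtain ⟨z, hzH, hzS⟩ := Finset.exists_mem_notMem_of_card_lt_card (s := S) (t := HF) (by omega)
  have hzH' : z ∈ H := by simpa [HF] using hzH
  simp only [S, Finset.mem_union, Finset.mem_insert, Finset.mem_singleton, not_or] at hzS
  obtain ⟨⟨⟨hz1, hz2⟩, hz3⟩, hz4, hz5, hz6⟩ := hzS
  obtain ⟨ρ1, hρ1⟩ := Moeb.exists hz4 (hne hz5)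
  obtain ⟨ρ2, hρ2⟩ := Moeb.exists hz4 (hne hz6)
  have hn1 : ρ1 ∉ H := fun h => hz1 (hB1 z ρ1 hzH' hρ1 h)
  have hn2 : ρ2 ∉ H := fun h => hz2 (hB2 z ρ2 hzH' hρ2 h)
  have hmem : ρ1 * ρ2⁻¹ ∈ H := by
    rw [Subgroup.mul_mem_iff_of_index_two hidx, inv_mem_iff]
    exact ⟨fun h => absurd h hn1, fun h => absurd h hn2⟩
  exact hz3 (hB3 z _ hzH' (Moeb3.of_moeb hρ1 hρ2) hmem)

end Fermat.Agent.S41.CSP
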