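import Mathlib

/-!
# S41 / CSP : the pigeonhole in `F_r` (step PIGEONHOLE of report 385): definitions
-/

namespace Fermat.Agent.S41.CSP

variable {r : ℕ} [Fact r.Prime]

/-- the relation `ρ = (w z - 1)/(z - 1)` between units of `F_r`. -/
def Moeb (w z ρ : (ZMod r)ˣ) : Prop :=
  (z : ZMod r) ≠ 1 ∧ (ρ : ZMod r) * ((z : ZMod r) - 1) = (w : ZMod r) * z - 1

/-- for `w ≠ 1` the Moebius map `z ↦ (wz-1)/(z-1)` is injective. -/
theorem Moeb.inj {w z z' ρ : (ZMod r)ˣ} (hw : w ≠ 1) (h : Moeb w z ρ) (h' : Moeb w z' ρ) : z = z' := by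
  by_contra hne
  have hzz : (z : ZMod r) - z' ≠ 0 := fun h0 => hne (Units.ext (sub_eq_zero.mp h0))
  have h1 : ((ρ : ZMod r) - w) * ((z : ZMod r) - z') = 0 := by
    linear_combination h.2 - h'.2
  have h2 : (ρ : ZMod r) = w := sub_eq_zero.mp ((mul_eq_zero.mp h1).resolve_right hzz)
  apply hw
  apply Units.ext
  have h3 := h.2
  rw [h2] at h3
  rw [Units.val_one]
  linear_combination -h3

/-- existence of the value: for `z ≠ 1`, `w z ≠ 1`. -/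
theorem Moeb.exists {w z : (ZMod r)ˣ} (hz : z ≠ 1) (hwz : w * z ≠ 1) : ∃ ρ, Moeb w z ρ := by
  have hz' : (z : ZMod r) ≠ 1 := fun h0 => hz (Units.ext (by rw [h0, Units.val_one]))
  have hz1 : (z : ZMod r) - 1 ≠ 0 := sub_ne_zero.mpr hz'
  have hwz' : (w : ZMod r) * z - 1 ≠ 0 := by
    intro h0
    apply hwz
    apply Units.ext
    rw [Units.val_mul, Units.val_one]
    exact sub_eq_zero.mp h0
  refine ⟨Units.mk0 (((w : ZMod r) * z - 1) / ((z : ZMod r) - 1)) (div_ne_zero hwz' hz1), hz', ?_⟩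
  rw [Units.val_mk0, div_mul_cancel₀ _ hz1]

/-- the relation `ρ = (w1 z - 1)/(w2 z - 1)`. -/
def Moeb3 (w1 w2 z ρ : (ZMod r)ˣ) : Prop :=
  (w2 : ZMod r) * z ≠ 1 ∧ (ρ : ZMod r) * ((w2 : ZMod r) * z - 1) = (w1 : ZMod r) * z - 1

theorem Moeb3.inj {w1 w2 z z' ρ : (ZMod r)ˣ} (hw : w1 ≠ w2) (h : Moeb3 w1 w2 z ρ)
    (h' : Moeb3 w1 w2 z' ρ) : z = z' := by
  by_contra hne
  have hzz : (z : ZMod r) - z' ≠ 0 := fun h0 => hne (Units.ext (sub_eq_zero.mp h0))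
  have h1 : ((ρ : ZMod r) * w2 - w1) * ((z : ZMod r) - z') = 0 := by
    linear_combination h.2 - h'.2
  have h2 : (ρ : ZMod r) * w2 = w1 := sub_eq_zero.mp ((mul_eq_zero.mp h1).resolve_right hzz)
  have h3 : (ρ : ZMod r) = 1 := by
    linear_combination (z : ZMod r) * h2 - h.2
  apply hw
  apply Units.ext
  rw [← h2, h3, one_mul]

theorem Moeb3.exists {w1 w2 z : (ZMod r)ˣ} (h1 : w1 * z ≠ 1) (h2 : w2 * z ≠ 1) :
    ∃ ρ, Moeb3 w1 w2 z ρ := by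
  have h1' : (w1 : ZMod r) * z - 1 ≠ 0 := by
    intro h0
    apply h1
    apply Units.ext
    rw [Units.val_mul, Units.val_one]
    exact sub_eq_zero.mp h0
  have h2' : (w2 : ZMod r) * z - 1 ≠ 0 := by
    intro h0
    apply h2
    apply Units.ext
    rw [Units.val_mul, Units.val_one]
    exact sub_eq_zero.mp h0
  refine ⟨Units.mk0 (((w1 : ZMod r) * z - 1) / ((w2 : ZMod r) * z - 1)) (div_ne_zero h1' h2'),
    fun h0 => h2' (sub_eq_zero.mpr h0), ?_⟩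
  rw [Units.val_mk0, div_mul_cancel₀ _ h2']

theorem Moeb3.of_moeb {w1 w2 z ρ1 ρ2 : (ZMod r)ˣ} (h1 : Moeb w1 z ρ1) (h2 : Moeb w2 z ρ2) :
    Moeb3 w1 w2 z (ρ1 * ρ2⁻¹) := by
  have hz1 : (z : ZMod r) - 1 ≠ 0 := sub_ne_zero.mpr h1.1
  have hρ2 : (ρ2 : ZMod r) ≠ 0 := ρ2.ne_zero
  refine ⟨fun h0 => ?_, ?_⟩
  · have h3 := h2.2
    rw [h0, sub_self] at h3
    exact (mul_ne_zero hρ2 hz1) h3
  · rw [← h2.2, ← h1.2, Units.val_mul, Units.val_inv_eq_inv_val]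
    field_simp

end Fermat.Agent.S41.CSP
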